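import Mathlib
import Fermat.Prelude.Def_GaloisRep_Residual
import Fermat.Agent.S56.Cheb.Galois.CycChar
import Fermat.Agent.S41.NonEis.Roots
import Fermat.Agent.CFT.Bridge.Inertia

/-!
# S48, part B, block B5, brick (A5): the Galois character `δ = ω_ℓ · ψ ∘ χ_M`

For a level `M`, a prime `ℓ`, a field `κ` of characteristic `ℓ` and `ψ : (ZMod M)ˣ →* κˣ`:
`galChar M ℓ ψ : G_ℚ →* κˣ`, `σ ↦ (χ_ℓ σ mod ℓ) · ψ (χ_M σ)` with `χ_N` the mod `N` cyclotomic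
character (`Fermat.Agent.S56.Cheb.Galois.CycChar.chi`).  It has finite level, is unramified
outside `M ℓ`, and `δ(Frob_p) = p ψ(p)` for every prime `p ∤ M ℓ`.
-/

set_option autoImplicit false

noncomputable section

namespace Fermat.Agent.S48.B.Chain.GalChar

open Fermat.Agent.S56.Cheb.Galois.CycChar (chi chi_eq_of_pow chi_eq_one_iff exists_primitiveRoot)
open Fermat.Agent.S41.NonEis.Roots (frob_root eq_of_sub_mem_nonunits)
open Fermat.Agent.S30.Algebra.Cyclotomic (mem_of_pow_eq_one)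

local notation "Qbar" => AlgebraicClosure ℚ

local notation "GQ" => (AlgebraicClosure ℚ ≃ₐ[ℚ] AlgebraicClosure ℚ)

/-! ### the mod `N` cyclotomic character: Frobenius, inertia, finite level -/

section chi

variable (N : ℕ) [NeZero N]

/-- `χ_N (Frob_p) = p` for `p ∤ N` -/
theorem chi_frob {p : ℕ} (hp : p.Prime) (hpN : ¬ p ∣ N) (A : ValuationSubring Qbar)
    (hA : A.LiesOverPrime p) (σ : GQ) (hσ : A.IsFrobeniusAt σ p) :
    ((chi N σ : (ZMod N)ˣ) : ZMod N) = (p : ZMod N) :=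
  chi_eq_of_pow N σ p fun _ ht => frob_root hp A hA σ hσ hpN ht

/-- `χ_N` is trivial on the inertia groups at `p ∤ N` -/
theorem chi_inertia {p : ℕ} (hp : p.Prime) (hpN : ¬ p ∣ N) (A : ValuationSubring Qbar)
    (hA : A.LiesOverPrime p) (σ : GQ) (hσ : σ ∈ A.inertiaSubgroupIn ℚ) : chi N σ = 1 := by
  rw [chi_eq_one_iff]
  intro t ht
  have htA : t ∈ A := mem_of_pow_eq_one A (NeZero.ne N) ht
  exact eq_of_sub_mem_nonunits A hp hA hpN (by rw [← map_pow, ht, map_one]) ht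
    (((Fermat.Agent.CFT.Bridge.Inertia.mem_inertiaSubgroupIn_iff ℚ).1 hσ).2 t htA)

/-- `χ_N` factors through the finite level `ℚ(ζ_N)` -/
theorem chi_finiteLevel : ∃ L : IntermediateField ℚ Qbar, FiniteDimensional ℚ L ∧
    ∀ σ : GQ, (∀ x ∈ L, σ x = x) → chi N σ = 1 := by
  obtain ⟨ζ, hζ⟩ := exists_primitiveRoot N
  have halg : Algebra.IsAlgebraic ℚ Qbar := AlgebraicClosure.isAlgebraic ℚ
  have hint : IsIntegral ℚ ζ := (halg.isAlgebraic ζ).isIntegral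
  refine ⟨IntermediateField.adjoin ℚ {ζ}, IntermediateField.adjoin.finiteDimensional hint,
    fun σ hσ => ?_⟩
  rw [chi_eq_one_iff]
  intro t ht
  obtain ⟨i, -, rfl⟩ := hζ.eq_pow_of_pow_eq_one ht
  rw [map_pow, hσ ζ (IntermediateField.mem_adjoin_simple_self ℚ ζ)]

end chi

/-! ### the character `δ` -/

section delta

variable (M ℓ : ℕ) [NeZero M] [Fact ℓ.Prime] {κ : Type} [Field κ] [CharP κ ℓ]

/-- reduction `(ZMod ℓ)ˣ →* κˣ` for a field `κ` of characteristic `ℓ` -/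
def teich : (ZMod ℓ)ˣ →* κˣ :=
  Units.map ((ZMod.castHom (dvd_refl ℓ) κ : ZMod ℓ →+* κ) : ZMod ℓ →* κ)

omit [NeZero M] in
theorem coe_teich (u : (ZMod ℓ)ˣ) :
    ((teich ℓ (κ := κ) u : κˣ) : κ) = ZMod.castHom (dvd_refl ℓ) κ (u : ZMod ℓ) := rfl

/-- **the character `δ = ω_ℓ · ψ ∘ χ_M`** -/
def galChar (ψ : (ZMod M)ˣ →* κˣ) : GQ →* κˣ :=
  ((teich ℓ (κ := κ)).comp (chi ℓ)) * (ψ.comp (chi M))

theorem galChar_apply (ψ : (ZMod M)ˣ →* κˣ) (σ : GQ) :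
    galChar M ℓ ψ σ = teich ℓ (chi ℓ σ) * ψ (chi M σ) := rfl

theorem galChar_finiteLevel (ψ : (ZMod M)ˣ →* κˣ) :
    GaloisFactorsThroughFiniteLevel (galChar M ℓ ψ) := by
  obtain ⟨L₁, hL₁, h₁⟩ := chi_finiteLevel ℓ
  obtain ⟨L₂, hL₂, h₂⟩ := chi_finiteLevel M
  refine ⟨L₁ ⊔ L₂, IntermediateField.finiteDimensional_sup L₁ L₂, fun σ hσ => ?_⟩
  rw [galChar_apply, h₁ σ fun x hx => hσ x ((le_sup_left : L₁ ≤ L₁ ⊔ L₂) hx),
    h₂ σ fun x hx => hσ x ((le_sup_right : L₂ ≤ L₁ ⊔ L₂) hx), map_one, map_one, one_mul]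

theorem galChar_inertia (ψ : (ZMod M)ˣ →* κˣ) {p : ℕ} (hp : p.Prime) (hpM : ¬ p ∣ M)
    (hpℓ : p ≠ ℓ) (A : ValuationSubring Qbar) (hA : A.LiesOverPrime p) (σ : GQ)
    (hσ : σ ∈ A.inertiaSubgroupIn ℚ) : galChar M ℓ ψ σ = 1 := by
  have hndvd : ¬ p ∣ ℓ := fun h =>
    hpℓ ((Nat.prime_dvd_prime_iff_eq hp (Fact.out : ℓ.Prime)).mp h)
  rw [galChar_apply, chi_inertia ℓ hp hndvd A hA σ hσ, chi_inertia M hp hpM A hA σ hσ, map_one,
    map_one, one_mul]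

theorem galChar_frob (ψ : (ZMod M)ˣ →* κˣ) {p : ℕ} (hp : p.Prime) (hpM : p.Coprime M)
    (hpℓ : p ≠ ℓ) (A : ValuationSubring Qbar) (hA : A.LiesOverPrime p) (σ : GQ)
    (hσ : A.IsFrobeniusAt σ p) :
    ((galChar M ℓ ψ σ : κˣ) : κ) = (p : κ) * ((ψ (ZMod.unitOfCoprime p hpM) : κˣ) : κ) := by
  have hndvd : ¬ p ∣ ℓ := fun h =>
    hpℓ ((Nat.prime_dvd_prime_iff_eq hp (Fact.out : ℓ.Prime)).mp h)
  have hpM' : ¬ p ∣ M := (Nat.Prime.coprime_iff_not_dvd hp).mp hpM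
  have h1 : chi M σ = ZMod.unitOfCoprime p hpM := by
    apply Units.ext
    rw [chi_frob M hp hpM' A hA σ hσ, ZMod.coe_unitOfCoprime]
  rw [galChar_apply, Units.val_mul, coe_teich, chi_frob ℓ hp hndvd A hA σ hσ, map_natCast, h1]

/-- **brick (A5), the literal of B5-CUT-1.** -/
theorem exists_galChar (ψ : (ZMod M)ˣ →* κˣ) :
    ∃ δ : GQ →* κˣ, GaloisFactorsThroughFiniteLevel δ ∧
      (∀ p : ℕ, p.Prime → ¬ p ∣ M * ℓ → ∀ A : ValuationSubring Qbar, A.LiesOverPrime p →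
        ∀ σ ∈ A.inertiaSubgroupIn ℚ, δ σ = 1) ∧
      (∀ (p : ℕ) (_ : p.Prime) (_ : ¬ p ∣ M * ℓ) (hpM : p.Coprime M)
        (A : ValuationSubring Qbar), A.LiesOverPrime p → ∀ σ : GQ, A.IsFrobeniusAt σ p →
          ((δ σ : κˣ) : κ) = (p : κ) * ((ψ (ZMod.unitOfCoprime p hpM) : κˣ) : κ)) := by
  refine ⟨galChar M ℓ ψ, galChar_finiteLevel M ℓ ψ, ?_, ?_⟩
  · intro p hp hpMℓ A hA σ hσ
    exact galChar_inertia M ℓ ψ hp (fun h => hpMℓ (h.mul_right ℓ))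
      (fun h => hpMℓ (h ▸ dvd_mul_left p M)) A hA σ hσ
  · intro p hp hpMℓ hpM A hA σ hσ
    exact galChar_frob M ℓ ψ hp hpM (fun h => hpMℓ (h ▸ dvd_mul_left p M)) A hA σ hσ

end delta

end Fermat.Agent.S48.B.Chain.GalChar
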