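import Mathlib

/-!
# S48, part B, block B5, brick (A5): maximality of `ker θ` and the residue field `κ = φ.range`

* `ker_isMaximal_of_isIntegral`: a ring homomorphism `θ : R →+* κ` into a field of characteristic
  `ℓ` all of whose values are integral over `ℤ` has a maximal kernel (its range is a field);
* `exists_algClosed_range`: for `φ : integralClosure ℤ ℂ →+* k`, `char k = ℓ`, the range
  `κ = φ.range` is an algebraically closed field of characteristic `ℓ`, and `φ` factors as
  `Zbar → κ → k`.
-/

set_option autoImplicit false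

noncomputable section

namespace Fermat.Agent.S48.B.Chain.KerMax

open Polynomial

local notation "Zbar" => integralClosure ℤ ℂ

/-- the range of a ring homomorphism with integral values into a field of characteristic `ℓ` is a
field -/
theorem isField_range_of_isIntegral {R κ : Type*} [CommRing R] [Field κ] {ℓ : ℕ} [Fact ℓ.Prime]
    [CharP κ ℓ] (θ : R →+* κ) (hint : ∀ r, IsIntegral ℤ (θ r)) : IsField θ.range := by
  have : CharP θ.range ℓ := RingHom.charP θ.range.subtype (Subring.subtype_injective θ.range) ℓ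
  let _ : Algebra (ZMod ℓ) θ.range := ZMod.algebra θ.range ℓ
  have : Algebra.IsIntegral (ZMod ℓ) θ.range := by
    constructor
    rintro ⟨x, r, rfl⟩
    have h1 : IsIntegral ℤ (θ r) := hint r
    have h2 : IsIntegral ℤ (⟨θ r, r, rfl⟩ : θ.range) := by
      have := (isIntegral_algHom_iff (θ.range.subtype.toIntAlgHom)
        (Subring.subtype_injective θ.range) (x := (⟨θ r, r, rfl⟩ : θ.range))).mp
      exact this h1
    exact h2.tower_top
  exact isField_of_isIntegral_of_isField' (R := ZMod ℓ) (Field.toIsField (ZMod ℓ))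

/-- **(1b)** a ring homomorphism with integral values into a field of characteristic `ℓ` has a
maximal kernel -/
theorem ker_isMaximal_of_isIntegral {R κ : Type*} [CommRing R] [Field κ] {ℓ : ℕ} [Fact ℓ.Prime]
    [CharP κ ℓ] (θ : R →+* κ) (hint : ∀ r, IsIntegral ℤ (θ r)) : (RingHom.ker θ).IsMaximal := by
  have hF := isField_range_of_isIntegral θ hint
  let _ : Field θ.range := hF.toField
  have h := RingHom.ker_isMaximal_of_surjective θ.rangeRestrict θ.rangeRestrict_surjective
  rwa [RingHom.ker_rangeRestrict] at h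

/-! ### the residue field of `Zbar` -/

/-- every element of `Zbar` is integral over `ℤ` (inside `Zbar`) -/
theorem isIntegral_zbar (z : Zbar) : IsIntegral ℤ z :=
  (isIntegral_algHom_iff (integralClosure ℤ ℂ).val Subtype.val_injective).mp z.2

/-- every monic polynomial of positive degree over `Zbar` has a root in `Zbar` -/
theorem exists_root_zbar (P : Zbar[X]) (hP : P.Monic) (hdeg : P.natDegree ≠ 0) :
    ∃ z : Zbar, P.eval z = 0 := by
  have hdeg' : (P.map (algebraMap Zbar ℂ)).degree ≠ 0 := by
    rw [hP.degree_map, degree_eq_natDegree hP.ne_zero]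
    exact_mod_cast hdeg
  obtain ⟨w, hw⟩ := IsAlgClosed.exists_root (P.map (algebraMap Zbar ℂ)) hdeg'
  have hw' : IsIntegral Zbar w := ⟨P, hP, by rwa [IsRoot, eval_map] at hw⟩
  have : Algebra.IsIntegral ℤ Zbar := ⟨isIntegral_zbar⟩
  have hwZ : IsIntegral ℤ w := isIntegral_trans w hw'
  refine ⟨⟨w, hwZ⟩, ?_⟩
  apply Subtype.val_injective
  have h1 : ((P.eval (⟨w, hwZ⟩ : Zbar) : Zbar) : ℂ) =
      (P.map (algebraMap Zbar ℂ)).eval w := by
    have h2 : w = algebraMap Zbar ℂ (⟨w, hwZ⟩ : Zbar) := rfl
    rw [eval_map]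
    conv_rhs => rw [h2]
    rw [Polynomial.eval₂_at_apply]
    rfl
  rw [h1]
  exact hw

/-- **(1b), second half**: `κ = φ.range` is an algebraically closed field of characteristic
`ℓ` through which `φ` factors. -/
theorem exists_algClosed_range {k : Type} [Field k] {ℓ : ℕ} [Fact ℓ.Prime] [CharP k ℓ]
    (φ : Zbar →+* k) :
    ∃ (κ : Type) (_ : Field κ) (_ : IsAlgClosed κ) (_ : CharP κ ℓ) (φ' : Zbar →+* κ)
      (ι : κ →+* k), Function.Surjective φ' ∧ φ = ι.comp φ' := by
  have hint : ∀ z : Zbar, IsIntegral ℤ (φ z) := fun z => (isIntegral_zbar z).map φ.toIntAlgHom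
  have hF := isField_range_of_isIntegral (ℓ := ℓ) φ hint
  let _ : Field φ.range := hF.toField
  have hchar : CharP φ.range ℓ :=
    RingHom.charP φ.range.subtype (Subring.subtype_injective φ.range) ℓ
  refine ⟨φ.range, inferInstance, ?_, hchar, φ.rangeRestrict, φ.range.subtype,
    φ.rangeRestrict_surjective, rfl⟩
  refine IsAlgClosed.of_exists_root _ fun p hp hirr => ?_
  have hmem : p ∈ lifts φ.rangeRestrict := by
    rw [mem_lifts]
    exact map_surjective _ φ.rangeRestrict_surjective p
  obtain ⟨P, hPmap, hPdeg, hPmonic⟩ := lifts_and_natDegree_eq_and_monic hmem hp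
  have hdeg : P.natDegree ≠ 0 := by
    rw [hPdeg]
    exact hirr.natDegree_pos.ne'
  obtain ⟨z, hz⟩ := exists_root_zbar P hPmonic hdeg
  refine ⟨φ.rangeRestrict z, ?_⟩
  rw [← hPmap, eval_map, Polynomial.eval₂_at_apply, hz, map_zero]

/-- **brick K of B5-CUT-2**, in helper17's binder shape. -/
theorem exists_kappa {k : Type} [Field k] {l : ℕ} [Fact l.Prime] [CharP k l] (phi : Zbar →+* k) :
    ∃ (kap : Type) (_ : Field kap) (_ : IsAlgClosed kap) (_ : CharP kap l) (phi' : Zbar →+* kap)
      (io : kap →+* k), (∀ z, io (phi' z) = phi z) ∧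
        ∀ {R : Type} [CommRing R] (th : R →+* Zbar), (RingHom.ker (phi'.comp th)).IsMaximal := by
  obtain ⟨κ, hF, hAC, hchar, φ', ι, -, hφ⟩ := exists_algClosed_range (ℓ := l) phi
  refine ⟨κ, hF, hAC, hchar, φ', ι, fun z => by rw [hφ]; rfl, fun {R} _ th => ?_⟩
  exact ker_isMaximal_of_isIntegral (ℓ := l) (φ'.comp th)
    fun r => (isIntegral_zbar (th r)).map φ'.toIntAlgHom

end Fermat.Agent.S48.B.Chain.KerMax
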