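/-
PROJECT D (S48, Deligne–Serre), PART B, block B5 (helper26): from a torsion vector to a `κ`-module.

`R` a commutative ring acting on a finite abelian group `V`, `Γ` a group acting `R`-linearly,
`θ : R →+* κ` a character into a field with MAXIMAL kernel `I`, `x ≠ 0` in `V` killed by `I`.
Then `Vm := V[I]` is a nonzero finite-dimensional vector space over the field `R ⧸ I`, stable under
`Γ`, and `Y := κ ⊗[R ⧸ I] Vm` is a nonzero finite-dimensional `κ[Γ]`-module on which every `r : R`
acts as the scalar `θ r`: every relation `ρ g ^ 2 - r • ρ g + s = 0` on `V` becomes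
`ρY g ^ 2 - θ r • ρY g + θ s = 0` on `Y` (route (2) of helper17's #5663: no eigenspaces, no
embedding bookkeeping).
-/
import Mathlib

set_option autoImplicit false

noncomputable section

namespace Fermat.Agent.S48.B.Chain.KappaModule

open TensorProduct

variable {Γ : Type*} [Group Γ] {R : Type} [CommRing R] {V : Type} [AddCommGroup V] [Module R V]

/-- An `R`-linear endomorphism preserves the `I`-torsion. -/
theorem map_mem_torsionBySet (I : Ideal R) (f : Module.End R V) {v : V}
    (hv : v ∈ Submodule.torsionBySet R V (I : Set R)) :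
    f v ∈ Submodule.torsionBySet R V (I : Set R) := by
  rw [Submodule.mem_torsionBySet_iff] at hv ⊢
  intro r
  rw [← map_smul, hv r, map_zero]

/-- The restriction of an `R`-linear endomorphism to the `I`-torsion, as an `(R ⧸ I)`-linear map. -/
def resEnd (I : Ideal R) (f : Module.End R V) :
    Module.End (R ⧸ I) (Submodule.torsionBySet R V (I : Set R)) where
  toFun v := ⟨f v, map_mem_torsionBySet I f v.2⟩
  map_add' v w := by
    apply Subtype.ext
    simp only [Submodule.coe_add, map_add]
  map_smul' c v := by
    obtain ⟨r, rfl⟩ := Ideal.Quotient.mk_surjective c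
    apply Subtype.ext
    simp only [RingHom.id_apply, Submodule.torsionBySet.mk_smul, Submodule.coe_smul, map_smul]

theorem resEnd_apply (I : Ideal R) (f : Module.End R V)
    (v : Submodule.torsionBySet R V (I : Set R)) : ((resEnd I f v : _) : V) = f v := rfl

/-- Restriction to the `I`-torsion as a monoid homomorphism. -/
def resHom (I : Ideal R) :
    Module.End R V →* Module.End (R ⧸ I) (Submodule.torsionBySet R V (I : Set R)) where
  toFun := resEnd I
  map_one' := by
    ext v
    rfl
  map_mul' f g := by
    ext v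
    rfl

theorem resHom_apply (I : Ideal R) (f : Module.End R V)
    (v : Submodule.torsionBySet R V (I : Set R)) : ((resHom I f v : _) : V) = f v := rfl

/-- A quadratic relation on `V` restricts to the `I`-torsion, with coefficients in `R ⧸ I`. -/
theorem resHom_rel (I : Ideal R) (f : Module.End R V) (r s : R)
    (h : f * f - r • f + s • (1 : Module.End R V) = 0) :
    resHom I f * resHom I f - Ideal.Quotient.mk I r • resHom I f +
      Ideal.Quotient.mk I s •
        (1 : Module.End (R ⧸ I) (Submodule.torsionBySet R V (I : Set R))) = 0 := by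
  ext v
  have e := congrArg (fun g : Module.End R V => g (v : V)) h
  simp only [LinearMap.add_apply, LinearMap.sub_apply, Module.End.mul_apply,
    LinearMap.smul_apply, Module.End.one_apply, LinearMap.zero_apply] at e
  simp only [LinearMap.add_apply, LinearMap.sub_apply, Module.End.mul_apply,
    LinearMap.smul_apply, Module.End.one_apply, LinearMap.zero_apply, Submodule.coe_add,
    Submodule.coe_sub, Submodule.coe_zero, Submodule.torsionBySet.mk_smul, Submodule.coe_smul,
    resHom_apply]
  exact e

/-- **The `κ`-module of a torsion vector.** -/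
theorem exists_kappa_module [Finite V] (ρ : Γ →* Module.End R V) {κ : Type} [Field κ]
    (θ : R →+* κ) (hmax : (RingHom.ker θ).IsMaximal) {x : V} (hx : x ≠ 0)
    (hxθ : ∀ r : R, θ r = 0 → r • x = 0) :
    ∃ (Y : Type) (_ : AddCommGroup Y) (_ : Module κ Y) (_ : Module.Finite κ Y) (_ : Nontrivial Y)
      (ρY : Γ →* Module.End κ Y), (∀ g : Γ, ρ g = 1 → ρY g = 1) ∧
      ∀ (g : Γ) (r s : R), ρ g * ρ g - r • ρ g + s • (1 : Module.End R V) = 0 →
        ρY g * ρY g - θ r • ρY g + θ s • (1 : Module.End κ Y) = 0 := by
  classical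
  set I : Ideal R := RingHom.ker θ with hI
  have : I.IsMaximal := hmax
  let _ : Field (R ⧸ I) := Ideal.Quotient.field I
  let _ : Algebra (R ⧸ I) κ :=
    (Ideal.Quotient.lift I θ fun r hr => (RingHom.mem_ker).1 hr).toAlgebra
  have halg : ∀ r : R, algebraMap (R ⧸ I) κ (Ideal.Quotient.mk I r) = θ r := fun r => rfl
  let Vm : Submodule R V := Submodule.torsionBySet R V (I : Set R)
  have hxm : x ∈ Vm := by
    rw [Submodule.mem_torsionBySet_iff]
    rintro ⟨r, hr⟩
    exact hxθ r ((RingHom.mem_ker).1 hr)
  have : Nontrivial Vm := ⟨⟨⟨x, hxm⟩, 0, fun h => hx (congrArg Subtype.val h)⟩⟩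
  have : Module.Finite (R ⧸ I) Vm := Module.Finite.of_finite
  have hpos : 0 < Module.finrank κ (κ ⊗[R ⧸ I] Vm) := by
    rw [Module.finrank_baseChange]
    exact Module.finrank_pos
  have : Nontrivial (κ ⊗[R ⧸ I] Vm) := Module.nontrivial_of_finrank_pos (R := κ) hpos
  let bc : Module.End (R ⧸ I) Vm →ₐ[R ⧸ I] Module.End κ (κ ⊗[R ⧸ I] Vm) :=
    Module.End.baseChangeHom (R ⧸ I) κ Vm
  refine ⟨κ ⊗[R ⧸ I] Vm, inferInstance, inferInstance, inferInstance, inferInstance,
    (bc : _ →* _).comp ((resHom I).comp ρ), ?_, ?_⟩
  · intro g hg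
    show bc (resHom I (ρ g)) = 1
    rw [hg, map_one, map_one]
  · intro g r s h
    show bc (resHom I (ρ g)) * bc (resHom I (ρ g)) - θ r • bc (resHom I (ρ g)) +
      θ s • (1 : Module.End κ (κ ⊗[R ⧸ I] Vm)) = 0
    have h1 := congrArg bc (resHom_rel I (ρ g) r s h)
    rw [map_add, map_sub, map_mul, map_smul, map_smul, map_one, map_zero] at h1
    rw [← halg r, ← halg s, algebraMap_smul, algebraMap_smul]
    exact h1

end Fermat.Agent.S48.B.Chain.KappaModule
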