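/-
PROJECT D (S48, Deligne–Serre), PART B, block B5: the ABSTRACT MOD-`ℓ` CHAIN (helper26).

Input (all abstract): a finite `𝔽_ℓ[G_ℚ]`-module `V` of finite level (in the application
`V = J₁(M)[ℓ]`), a commutative ring `R` acting on `V` and commuting with `G_ℚ` (the Hecke and
diamond operators), a character `θ : R →+* κ` into an algebraically closed field `κ` of
characteristic `ℓ` having a nonzero eigenvector in `κ ⊗ V`, the Eichler–Shimura relation
`Frob_p² - T_p Frob_p + D_p = 0` on `V` at every `p ∉ Sg`, and a character `δ` of `G_ℚ` with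
`δ(Frob_p) = θ(D_p)`.

Output: a two-dimensional `ResidualGaloisRep k` (for any `ι : κ →+* k`), unramified outside `Sg`,
with `charpoly(Frob_p) = X² - ι θ(T_p) X + ι θ(D_p)` for every `p ∉ Sg`.

The algebraic heart is helper1's `QuadRel.exists_rep_of_quadRel`, consumed here as the hypothesis
`QuadRelGQ` (its literal at `Γ = G_ℚ`); the Frobenius density input is `frobenius_density_final`
from main's `S30/Density/Bridge`.
-/
import Mathlib
import Fermat.Prelude.Def_GaloisRep_Residual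
import Fermat.Agent.S30.Density.Bridge
import Fermat.Agent.S48.B.Chain.KappaModule

set_option autoImplicit false

noncomputable section

namespace Fermat.Agent.S48.B.Chain.ModL

open Polynomial TensorProduct

/-- `ℚbar`. -/
abbrev Qbar := AlgebraicClosure ℚ

/-- The absolute Galois group of `ℚ`. -/
abbrev GQ := Qbar ≃ₐ[ℚ] Qbar

/-- helper1's `QuadRel.exists_rep_of_quadRel` (board #5626), specialised to `Γ = G_ℚ`, as a `Prop`:
a finite-dimensional nonzero representation over an algebraically closed field of characteristic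
`≠ 2` in which the elements of a set `S` (meeting every element up to powers and conjugation)
satisfy quadratic relations with constant term a character `δ` has a two-dimensional companion with
those characteristic polynomials. -/
def QuadRelGQ : Prop :=
  ∀ {k : Type} [Field k] [IsAlgClosed k], (2 : k) ≠ 0 →
    ∀ {V : Type} [AddCommGroup V] [Module k V] [FiniteDimensional k V] [Nontrivial V]
      (ρ : GQ →* Module.End k V) (δ : GQ →* kˣ) (S : Set GQ),
      (∀ g : GQ, ∃ φ ∈ S, ∃ (j : ℕ) (τ : GQ), ρ g = ρ (τ * φ ^ j * τ⁻¹) ∧ δ g = δ φ ^ j) →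
      (∀ φ ∈ S, ∃ t : k,
        ρ φ * ρ φ - t • ρ φ + ((δ φ : kˣ) : k) • (1 : Module.End k V) = 0) →
      ∃ (W : Type) (_ : AddCommGroup W) (_ : Module k W) (_ : Module.Finite k W)
        (ρ' : GQ →* Module.End k W),
        Module.finrank k W = 2 ∧ (∀ g, ρ g = 1 → δ g = 1 → ρ' g = 1) ∧
        (∀ U : Submodule k W, (∀ g, U.map (ρ' g) ≤ U) →
          ∃ U' : Submodule k W, IsCompl U U' ∧ ∀ g, U'.map (ρ' g) ≤ U') ∧
        ∀ (g : GQ) (t : k),
          ρ g * ρ g - t • ρ g + ((δ g : kˣ) : k) • (1 : Module.End k V) = 0 →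
          LinearMap.charpoly (ρ' g) = X ^ 2 - C t * X + C ((δ g : kˣ) : k)

/-- The set of Frobenius lifts at primes outside `Sg`. -/
def frobSet (Sg : Finset ℕ) : Set GQ :=
  {τ | ∃ p : ℕ, p.Prime ∧ p ∉ Sg ∧ ∃ A : ValuationSubring Qbar,
    A.LiesOverPrime p ∧ A.IsFrobeniusAt τ p}

/-- A homomorphism trivial on the pointwise stabiliser of `L` takes the same value at two
automorphisms which agree on `L`. -/
theorem map_eq_of_agree {M : Type*} [Monoid M] (ρ : GQ →* M) (L : IntermediateField ℚ Qbar)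
    (hL : ∀ σ : GQ, (∀ x ∈ L, σ x = x) → ρ σ = 1) (g h : GQ) (hgh : ∀ x ∈ L, g x = h x) :
    ρ g = ρ h := by
  have h1 : ρ (h⁻¹ * g) = 1 := by
    apply hL
    intro x hx
    rw [AlgEquiv.mul_apply, hgh x hx]
    change (h⁻¹ * h) x = x
    rw [inv_mul_cancel]
    rfl
  have h2 : g = h * (h⁻¹ * g) := by rw [mul_inv_cancel_left]
  rw [h2, map_mul, h1, mul_one]

/-- **Step 1** (over `κ`): from the quadratic relations at the Frobenius lifts to a
`ResidualGaloisRep κ` with the right characteristic polynomials. -/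
theorem exists_rep_of_frobRel (hQ : QuadRelGQ) {κ : Type} [Field κ] [IsAlgClosed κ]
    (h2 : (2 : κ) ≠ 0) {U : Type} [AddCommGroup U] [Module κ U] [FiniteDimensional κ U]
    [Nontrivial U] (ρ : GQ →* Module.End κ U) (hfin : GaloisFactorsThroughFiniteLevel ρ)
    (δ : GQ →* κˣ) (hδfin : GaloisFactorsThroughFiniteLevel δ) (Sg : Finset ℕ)
    (hunr : ∀ p : ℕ, p.Prime → p ∉ Sg → ∀ A : ValuationSubring Qbar, A.LiesOverPrime p →
      ∀ σ ∈ A.inertiaSubgroupIn ℚ, ρ σ = 1 ∧ δ σ = 1)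
    (t : ℕ → κ)
    (hrel : ∀ p : ℕ, p.Prime → p ∉ Sg → ∀ A : ValuationSubring Qbar, A.LiesOverPrime p →
      ∀ σ : GQ, A.IsFrobeniusAt σ p →
        ρ σ * ρ σ - t p • ρ σ + ((δ σ : κˣ) : κ) • (1 : Module.End κ U) = 0) :
    ∃ r : ResidualGaloisRep κ, (∀ p : ℕ, p.Prime → p ∉ Sg → r.IsUnramifiedAt p) ∧
      ∀ p : ℕ, p.Prime → p ∉ Sg → ∀ A : ValuationSubring Qbar, A.LiesOverPrime p →
        ∀ σ : GQ, A.IsFrobeniusAt σ p →
          LinearMap.charpoly (r.ρ σ) = X ^ 2 - C (t p) * X + C ((δ σ : κˣ) : κ) := by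
  classical
  obtain ⟨Lρ, hLρfd, hLρ⟩ := hfin
  obtain ⟨Lδ, hLδfd, hLδ⟩ := hδfin
  have : FiniteDimensional ℚ ↥(Lρ ⊔ Lδ) := IntermediateField.finiteDimensional_sup _ _
  have hLρ' : ∀ σ : GQ, (∀ x ∈ Lρ ⊔ Lδ, σ x = x) → ρ σ = 1 := fun σ hσ =>
    hLρ σ fun x hx => hσ x ((le_sup_left : Lρ ≤ Lρ ⊔ Lδ) hx)
  have hLδ' : ∀ σ : GQ, (∀ x ∈ Lρ ⊔ Lδ, σ x = x) → δ σ = 1 := fun σ hσ =>
    hLδ σ fun x hx => hσ x ((le_sup_right : Lδ ≤ Lρ ⊔ Lδ) hx)
  have hS : ∀ g : GQ, ∃ φ ∈ frobSet Sg, ∃ (j : ℕ) (τ : GQ),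
      ρ g = ρ (τ * φ ^ j * τ⁻¹) ∧ δ g = δ φ ^ j := by
    intro g
    obtain ⟨l, hl, hlS, A, τ, k, j, hA, hτ, h1, h2'⟩ :=
      Fermat.Agent.S30.Density.Bridge.frobenius_density_final (Lρ ⊔ Lδ) g Sg
    refine ⟨τ, ⟨l, hl, hlS, A, hA, hτ⟩, j, 1, ?_, ?_⟩
    · have e1 : ρ τ = ρ (g ^ k) := map_eq_of_agree ρ _ hLρ' τ (g ^ k) h1
      have e2 : ρ g = ρ ((g ^ k) ^ j) :=
        map_eq_of_agree ρ _ hLρ' g ((g ^ k) ^ j) fun x hx => (h2' x hx).symm
      rw [one_mul, inv_one, mul_one, map_pow, e1, ← map_pow, e2]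
    · have e1 : δ τ = δ (g ^ k) := map_eq_of_agree δ _ hLδ' τ (g ^ k) h1
      have e2 : δ g = δ ((g ^ k) ^ j) :=
        map_eq_of_agree δ _ hLδ' g ((g ^ k) ^ j) fun x hx => (h2' x hx).symm
      rw [e1, ← map_pow, e2]
  have hrel' : ∀ φ ∈ frobSet Sg, ∃ t' : κ,
      ρ φ * ρ φ - t' • ρ φ + ((δ φ : κˣ) : κ) • (1 : Module.End κ U) = 0 := by
    rintro φ ⟨p, hp, hpS, A, hA, hφ⟩
    exact ⟨t p, hrel p hp hpS A hA φ hφ⟩
  obtain ⟨W, _, _, _, ρ', hfr, hker, -, hchar⟩ := hQ h2 ρ δ (frobSet Sg) hS hrel'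
  refine ⟨{ V := W
            finrank_eq := hfr
            ρ := ρ'
            factorsThroughFiniteLevel := ⟨Lρ ⊔ Lδ, inferInstance, fun σ hσ =>
              hker σ (hLρ' σ hσ) (hLδ' σ hσ)⟩ }, ?_, ?_⟩
  · intro p hp hpS A hA σ hσ
    exact hker σ (hunr p hp hpS A hA σ hσ).1 (hunr p hp hpS A hA σ hσ).2
  · intro p hp hpS A hA σ hσ
    exact hchar σ (t p) (hrel p hp hpS A hA σ hσ)

/-- **Step 2**: base change of a residual representation along a field homomorphism. -/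
theorem exists_rep_baseChange {κ k : Type} [Field κ] [Field k] (ι : κ →+* k)
    (r : ResidualGaloisRep κ) :
    ∃ r' : ResidualGaloisRep k, (∀ q : ℕ, r.IsUnramifiedAt q → r'.IsUnramifiedAt q) ∧
      ∀ σ : GQ, LinearMap.charpoly (r'.ρ σ) = (LinearMap.charpoly (r.ρ σ)).map ι := by
  let _ : Algebra κ k := ι.toAlgebra
  refine ⟨r.baseChange k, fun q hq P hP σ hσ => ?_, fun σ => ?_⟩
  · have h2 : (r.baseChange k).ρ σ = (r.ρ σ).baseChange k := rfl
    rw [h2, hq P hP σ hσ]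
    exact LinearMap.baseChange_one (R := κ) (A := k) (M := r.V)
  · have h2 : (r.baseChange k).ρ σ = (r.ρ σ).baseChange k := rfl
    rw [h2]
    exact LinearMap.charpoly_baseChange (A := k) (r.ρ σ)

/-! ### The common eigenspace of a commuting family, and the restricted representation -/

section Eigen

variable {κ : Type} [Field κ] {Y : Type} [AddCommGroup Y] [Module κ Y] {R : Type} [CommRing R]

/-- The common eigenspace of the operators `b r` with eigenvalues `θ r`. -/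
def eigenspace (b : R →+* Module.End κ Y) (θ : R →+* κ) : Submodule κ Y :=
  ⨅ r : R, LinearMap.ker (b r - θ r • (1 : Module.End κ Y))

theorem mem_eigenspace {b : R →+* Module.End κ Y} {θ : R →+* κ} {v : Y} :
    v ∈ eigenspace b θ ↔ ∀ r : R, b r v = θ r • v := by
  simp only [eigenspace, Submodule.mem_iInf, LinearMap.mem_ker, LinearMap.sub_apply,
    LinearMap.smul_apply, Module.End.one_apply, sub_eq_zero]

theorem map_mem_eigenspace (b : R →+* Module.End κ Y) (θ : R →+* κ) (f : Module.End κ Y)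
    (hf : ∀ r : R, Commute (b r) f) {v : Y} (hv : v ∈ eigenspace b θ) :
    f v ∈ eigenspace b θ := by
  rw [mem_eigenspace] at hv ⊢
  intro r
  have h := congrArg (fun g : Module.End κ Y => g v) (hf r).eq
  simp only [Module.End.mul_apply] at h
  rw [h, hv r, map_smul]

/-- The restriction of a representation commuting with the `b r` to their common eigenspace. -/
def restrictRep (b : R →+* Module.End κ Y) (θ : R →+* κ) (ρ : GQ →* Module.End κ Y)
    (hc : ∀ (r : R) (σ : GQ), Commute (b r) (ρ σ)) : GQ →* Module.End κ (eigenspace b θ) where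
  toFun σ := (ρ σ).restrict fun _ hv => map_mem_eigenspace b θ (ρ σ) (fun r => hc r σ) hv
  map_one' := by
    ext u
    rw [LinearMap.coe_restrict_apply, map_one]
    rfl
  map_mul' σ τ := by
    ext u
    rw [LinearMap.coe_restrict_apply, map_mul]
    rfl

theorem restrictRep_apply (b : R →+* Module.End κ Y) (θ : R →+* κ) (ρ : GQ →* Module.End κ Y)
    (hc : ∀ (r : R) (σ : GQ), Commute (b r) (ρ σ)) (σ : GQ) (u : eigenspace b θ) :
    ((restrictRep b θ ρ hc σ u : eigenspace b θ) : Y) = ρ σ u := rfl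

theorem restrictRep_eq_one (b : R →+* Module.End κ Y) (θ : R →+* κ) (ρ : GQ →* Module.End κ Y)
    (hc : ∀ (r : R) (σ : GQ), Commute (b r) (ρ σ)) {σ : GQ} (h : ρ σ = 1) :
    restrictRep b θ ρ hc σ = 1 := by
  ext u
  rw [restrictRep_apply, h]
  rfl

/-- **Step 3 over `κ`**: a finite-dimensional `κ[G_ℚ]`-module `Y` of finite level with commuting
operators `b r`, a character `θ` of `R` having a nonzero eigenvector, and the Eichler–Shimura
relation at the Frobenius lifts. -/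
theorem exists_rep_of_eigen (hQ : QuadRelGQ) [IsAlgClosed κ] (h2 : (2 : κ) ≠ 0)
    [FiniteDimensional κ Y] (ρ : GQ →* Module.End κ Y) (hfin : GaloisFactorsThroughFiniteLevel ρ)
    (b : R →+* Module.End κ Y) (hc : ∀ (r : R) (σ : GQ), Commute (b r) (ρ σ)) (θ : R →+* κ)
    (hE : ∃ v : Y, v ≠ 0 ∧ ∀ r : R, b r v = θ r • v) (Sg : Finset ℕ)
    (hunr : ∀ p : ℕ, p.Prime → p ∉ Sg → ∀ A : ValuationSubring Qbar, A.LiesOverPrime p →
      ∀ σ ∈ A.inertiaSubgroupIn ℚ, ρ σ = 1)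
    (T D : ℕ → R)
    (hES : ∀ p : ℕ, p.Prime → p ∉ Sg → ∀ A : ValuationSubring Qbar, A.LiesOverPrime p →
      ∀ σ : GQ, A.IsFrobeniusAt σ p → ρ σ * ρ σ - b (T p) * ρ σ + b (D p) = 0)
    (δ : GQ →* κˣ) (hδfin : GaloisFactorsThroughFiniteLevel δ)
    (hδunr : ∀ p : ℕ, p.Prime → p ∉ Sg → ∀ A : ValuationSubring Qbar, A.LiesOverPrime p →
      ∀ σ ∈ A.inertiaSubgroupIn ℚ, δ σ = 1)
    (hδ : ∀ p : ℕ, p.Prime → p ∉ Sg → ∀ A : ValuationSubring Qbar, A.LiesOverPrime p →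
      ∀ σ : GQ, A.IsFrobeniusAt σ p → ((δ σ : κˣ) : κ) = θ (D p)) :
    ∃ r : ResidualGaloisRep κ, (∀ p : ℕ, p.Prime → p ∉ Sg → r.IsUnramifiedAt p) ∧
      ∀ p : ℕ, p.Prime → p ∉ Sg → ∀ A : ValuationSubring Qbar, A.LiesOverPrime p →
        ∀ σ : GQ, A.IsFrobeniusAt σ p →
          LinearMap.charpoly (r.ρ σ) = X ^ 2 - C (θ (T p)) * X + C (θ (D p)) := by
  classical
  obtain ⟨v, hv0, hv⟩ := hE
  have hvU : v ∈ eigenspace b θ := mem_eigenspace.2 hv
  have : Nontrivial (eigenspace b θ) :=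
    ⟨⟨⟨v, hvU⟩, 0, fun h => hv0 (congrArg Subtype.val h)⟩⟩
  have hfinU : GaloisFactorsThroughFiniteLevel (restrictRep b θ ρ hc) := by
    obtain ⟨L, hL, h1⟩ := hfin
    exact ⟨L, hL, fun σ hσ => restrictRep_eq_one b θ ρ hc (h1 σ hσ)⟩
  have hunrU : ∀ p : ℕ, p.Prime → p ∉ Sg → ∀ A : ValuationSubring Qbar, A.LiesOverPrime p →
      ∀ σ ∈ A.inertiaSubgroupIn ℚ, restrictRep b θ ρ hc σ = 1 ∧ δ σ = 1 :=
    fun p hp hpS A hA σ hσ =>
      ⟨restrictRep_eq_one b θ ρ hc (hunr p hp hpS A hA σ hσ), hδunr p hp hpS A hA σ hσ⟩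
  have hrelU : ∀ p : ℕ, p.Prime → p ∉ Sg → ∀ A : ValuationSubring Qbar, A.LiesOverPrime p →
      ∀ σ : GQ, A.IsFrobeniusAt σ p →
        restrictRep b θ ρ hc σ * restrictRep b θ ρ hc σ - θ (T p) • restrictRep b θ ρ hc σ +
          ((δ σ : κˣ) : κ) • (1 : Module.End κ (eigenspace b θ)) = 0 := by
    intro p hp hpS A hA σ hσ
    ext u
    have hu := mem_eigenspace.1 u.2
    have hu' := mem_eigenspace.1 (map_mem_eigenspace b θ (ρ σ) (fun r => hc r σ) u.2)
    have e := congrArg (fun f : Module.End κ Y => f (u : Y)) (hES p hp hpS A hA σ hσ)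
    simp only [LinearMap.add_apply, LinearMap.sub_apply, Module.End.mul_apply,
      LinearMap.zero_apply] at e
    rw [hu' (T p), hu (D p), ← hδ p hp hpS A hA σ hσ] at e
    simp only [LinearMap.add_apply, LinearMap.sub_apply, Module.End.mul_apply,
      LinearMap.smul_apply, Module.End.one_apply, LinearMap.zero_apply, Submodule.coe_add,
      Submodule.coe_sub, Submodule.coe_smul, Submodule.coe_zero, restrictRep_apply]
    exact e
  obtain ⟨r, hr1, hr2⟩ := exists_rep_of_frobRel hQ h2 (restrictRep b θ ρ hc) hfinU δ hδfin Sg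
    hunrU (fun p => θ (T p)) hrelU
  refine ⟨r, hr1, fun p hp hpS A hA σ hσ => ?_⟩
  rw [hr2 p hp hpS A hA σ hσ, hδ p hp hpS A hA σ hσ]

end Eigen

/-- **Step 3**: the mod-`ℓ` chain, with helper1's algebra (`QuadRelGQ`) and the existence of a
`θ`-eigenvector in `κ ⊗ V` as hypotheses. -/
theorem exists_residualRep_of (hQ : QuadRelGQ) {ℓ : ℕ} [Fact ℓ.Prime] (hℓ2 : ℓ ≠ 2)
    {κ k : Type} [Field κ] [IsAlgClosed κ] [Algebra (ZMod ℓ) κ] [Field k] (ι : κ →+* k)
    {V : Type} [AddCommGroup V] [Module (ZMod ℓ) V] [Finite V]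
    (ρ : GQ →* Module.End (ZMod ℓ) V) (hfin : GaloisFactorsThroughFiniteLevel ρ)
    {R : Type} [CommRing R] (a : R →+* Module.End (ZMod ℓ) V)
    (hcomm : ∀ (r : R) (σ : GQ), Commute (a r) (ρ σ))
    (θ : R →+* κ)
    (hE : ∃ v : κ ⊗[ZMod ℓ] V, v ≠ 0 ∧ ∀ r : R, (a r).baseChange κ v = θ r • v)
    (Sg : Finset ℕ)
    (hunr : ∀ p : ℕ, p.Prime → p ∉ Sg → ∀ A : ValuationSubring Qbar, A.LiesOverPrime p →
      ∀ σ ∈ A.inertiaSubgroupIn ℚ, ρ σ = 1)
    (T D : ℕ → R)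
    (hES : ∀ p : ℕ, p.Prime → p ∉ Sg → ∀ A : ValuationSubring Qbar, A.LiesOverPrime p →
      ∀ σ : GQ, A.IsFrobeniusAt σ p → ρ σ * ρ σ - a (T p) * ρ σ + a (D p) = 0)
    (δ : GQ →* κˣ) (hδfin : GaloisFactorsThroughFiniteLevel δ)
    (hδunr : ∀ p : ℕ, p.Prime → p ∉ Sg → ∀ A : ValuationSubring Qbar, A.LiesOverPrime p →
      ∀ σ ∈ A.inertiaSubgroupIn ℚ, δ σ = 1)
    (hδ : ∀ p : ℕ, p.Prime → p ∉ Sg → ∀ A : ValuationSubring Qbar, A.LiesOverPrime p →
      ∀ σ : GQ, A.IsFrobeniusAt σ p → ((δ σ : κˣ) : κ) = θ (D p)) :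
    ∃ r : ResidualGaloisRep k, (∀ p : ℕ, p.Prime → p ∉ Sg → r.IsUnramifiedAt p) ∧
      ∀ p : ℕ, p.Prime → p ∉ Sg → ∀ A : ValuationSubring Qbar, A.LiesOverPrime p →
        ∀ σ : GQ, A.IsFrobeniusAt σ p →
          LinearMap.charpoly (r.ρ σ) = X ^ 2 - C (ι (θ (T p))) * X + C (ι (θ (D p))) := by
  classical
  have hℓ : ℓ.Prime := Fact.out
  have h2 : (2 : κ) ≠ 0 := by
    have h2' : (2 : ZMod ℓ) ≠ 0 := by
      intro h
      have h3 : ((2 : ℕ) : ZMod ℓ) = 0 := by exact_mod_cast h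
      rw [ZMod.natCast_eq_zero_iff] at h3
      exact hℓ2 ((Nat.prime_dvd_prime_iff_eq hℓ Nat.prime_two).1 h3)
    intro h
    apply h2'
    apply (algebraMap (ZMod ℓ) κ).injective
    rw [map_ofNat, map_zero]
    exact h
  have : Module.Finite (ZMod ℓ) V := Module.Finite.of_finite
  -- base change of endomorphisms
  let bc : Module.End (ZMod ℓ) V →ₐ[ZMod ℓ] Module.End κ (κ ⊗[ZMod ℓ] V) :=
    Module.End.baseChangeHom (ZMod ℓ) κ V
  have hbc : ∀ f : Module.End (ZMod ℓ) V, bc f = f.baseChange κ := fun f => rfl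
  let ρκ : GQ →* Module.End κ (κ ⊗[ZMod ℓ] V) := (bc : _ →* _).comp ρ
  let b : R →+* Module.End κ (κ ⊗[ZMod ℓ] V) := (bc : _ →+* _).comp a
  have hρκ : ∀ σ : GQ, ρκ σ = bc (ρ σ) := fun σ => rfl
  have hb : ∀ r : R, b r = bc (a r) := fun r => rfl
  have hc : ∀ (r : R) (σ : GQ), Commute (b r) (ρκ σ) := by
    intro r σ
    rw [hρκ, hb]
    exact (hcomm r σ).map bc
  have hfinκ : GaloisFactorsThroughFiniteLevel ρκ := by
    obtain ⟨L, hL, h1⟩ := hfin
    exact ⟨L, hL, fun σ hσ => by rw [hρκ, h1 σ hσ, map_one]⟩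
  have hEκ : ∃ v : κ ⊗[ZMod ℓ] V, v ≠ 0 ∧ ∀ r : R, b r v = θ r • v := by
    obtain ⟨v, hv0, hv⟩ := hE
    exact ⟨v, hv0, fun r => by rw [hb, hbc, hv r]⟩
  have hunrκ : ∀ p : ℕ, p.Prime → p ∉ Sg → ∀ A : ValuationSubring Qbar, A.LiesOverPrime p →
      ∀ σ ∈ A.inertiaSubgroupIn ℚ, ρκ σ = 1 := fun p hp hpS A hA σ hσ => by
    rw [hρκ, hunr p hp hpS A hA σ hσ, map_one]
  have hESκ : ∀ p : ℕ, p.Prime → p ∉ Sg → ∀ A : ValuationSubring Qbar, A.LiesOverPrime p →
      ∀ σ : GQ, A.IsFrobeniusAt σ p → ρκ σ * ρκ σ - b (T p) * ρκ σ + b (D p) = 0 := by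
    intro p hp hpS A hA σ hσ
    have h := congrArg bc (hES p hp hpS A hA σ hσ)
    rw [map_add, map_sub, map_mul, map_mul, map_zero] at h
    exact h
  obtain ⟨r, hr1, hr2⟩ := exists_rep_of_eigen hQ h2 ρκ hfinκ b hc θ hEκ Sg hunrκ T D hESκ δ hδfin
    hδunr hδ
  obtain ⟨r', hr'1, hr'2⟩ := exists_rep_baseChange ι r
  refine ⟨r', fun p hp hpS => hr'1 p (hr1 p hp hpS), fun p hp hpS A hA σ hσ => ?_⟩
  rw [hr'2 σ, hr2 p hp hpS A hA σ hσ]
  simp only [Polynomial.map_add, Polynomial.map_sub, Polynomial.map_mul, Polynomial.map_pow,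
    Polynomial.map_X, Polynomial.map_C]

/-- **B5-1, the mod-`ℓ` chain** (literal agreed with helper17, #5657 + #5663): `V` a finite
`G_ℚ`-module of finite level, unramified outside `Sg`, with a commuting action `a` of a commutative
ring `R`; `θ : R →+* κ` with maximal kernel killing a nonzero `x ∈ V`; the Eichler–Shimura relation
`Frob_p² - a(T_p) Frob_p + a(D_p) = 0` on `V` and a character `δ` with `δ(Frob_p) = θ(D_p)`, for
`p ∉ Sg`.  Then there is a `ResidualGaloisRep k`, unramified outside `Sg`, with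
`charpoly(Frob_p) = X² - ι θ(T_p) X + ι θ(D_p)`.  (`F` is any base ring over which `V` is a module:
`ZMod ℓ` or `ℤ`.) -/
theorem exists_residualRep (hQ : QuadRelGQ) {ℓ : ℕ} [Fact ℓ.Prime] (hℓ2 : ℓ ≠ 2)
    {κ k : Type} [Field κ] [IsAlgClosed κ] [CharP κ ℓ] [Field k] (ι : κ →+* k)
    {F : Type} [CommRing F] {V : Type} [AddCommGroup V] [Module F V] [Finite V]
    (ρ : GQ →* Module.End F V) (hfin : GaloisFactorsThroughFiniteLevel ρ)
    {R : Type} [CommRing R] (a : R →+* Module.End F V)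
    (hcomm : ∀ (r : R) (σ : GQ), Commute (a r) (ρ σ))
    (θ : R →+* κ) (hmax : (RingHom.ker θ).IsMaximal) {x : V} (hx : x ≠ 0)
    (hxθ : ∀ r : R, θ r = 0 → a r x = 0)
    (Sg : Finset ℕ)
    (hunr : ∀ p : ℕ, p.Prime → p ∉ Sg → ∀ A : ValuationSubring Qbar, A.LiesOverPrime p →
      ∀ σ ∈ A.inertiaSubgroupIn ℚ, ρ σ = 1)
    (T D : ℕ → R)
    (hES : ∀ p : ℕ, p.Prime → p ∉ Sg → ∀ A : ValuationSubring Qbar, A.LiesOverPrime p →
      ∀ σ : GQ, A.IsFrobeniusAt σ p → ρ σ * ρ σ - a (T p) * ρ σ + a (D p) = 0)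
    (δ : GQ →* κˣ) (hδfin : GaloisFactorsThroughFiniteLevel δ)
    (hδunr : ∀ p : ℕ, p.Prime → p ∉ Sg → ∀ A : ValuationSubring Qbar, A.LiesOverPrime p →
      ∀ σ ∈ A.inertiaSubgroupIn ℚ, δ σ = 1)
    (hδ : ∀ p : ℕ, p.Prime → p ∉ Sg → ∀ A : ValuationSubring Qbar, A.LiesOverPrime p →
      ∀ σ : GQ, A.IsFrobeniusAt σ p → ((δ σ : κˣ) : κ) = θ (D p)) :
    ∃ r : ResidualGaloisRep k, (∀ p : ℕ, p.Prime → p ∉ Sg → r.IsUnramifiedAt p) ∧
      ∀ p : ℕ, p.Prime → p ∉ Sg → ∀ A : ValuationSubring Qbar, A.LiesOverPrime p →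
        ∀ σ : GQ, A.IsFrobeniusAt σ p →
          LinearMap.charpoly (r.ρ σ) = X ^ 2 - C (ι (θ (T p))) * X + C (ι (θ (D p))) := by
  classical
  have hℓ : ℓ.Prime := Fact.out
  have h2 : (2 : κ) ≠ 0 := by
    intro h
    have h3 : ((2 : ℕ) : κ) = 0 := by exact_mod_cast h
    rw [CharP.cast_eq_zero_iff κ ℓ] at h3
    exact hℓ2 ((Nat.prime_dvd_prime_iff_eq hℓ Nat.prime_two).1 h3)
  -- `V` as an `R`-module through `a`
  let _ : Module R V := Module.compHom V a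
  have hsmul : ∀ (r : R) (v : V), r • v = a r v := fun r v => rfl
  let ρR : GQ →* Module.End R V :=
    { toFun := fun σ =>
        { toFun := ρ σ
          map_add' := map_add _
          map_smul' := fun r v => by
            have h := congrArg (fun f : Module.End F V => f v) (hcomm r σ).eq
            simp only [Module.End.mul_apply] at h
            rw [RingHom.id_apply, hsmul, hsmul, h] }
      map_one' := by
        ext v
        show ρ 1 v = v
        rw [map_one]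
        rfl
      map_mul' := fun σ τ => by
        ext v
        show ρ (σ * τ) v = ρ σ (ρ τ v)
        rw [map_mul]
        rfl }
  have hρR : ∀ (σ : GQ) (v : V), ρR σ v = ρ σ v := fun _ _ => rfl
  have hρR1 : ∀ σ : GQ, ρ σ = 1 → ρR σ = 1 := by
    intro σ h
    ext v
    rw [hρR, h]
    rfl
  obtain ⟨Y, _, _, _, _, ρY, hY1, hYrel⟩ :=
    KappaModule.exists_kappa_module ρR θ hmax hx (fun r hr => hxθ r hr)
  have hfinY : GaloisFactorsThroughFiniteLevel ρY := by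
    obtain ⟨L, hL, h1⟩ := hfin
    exact ⟨L, hL, fun σ hσ => hY1 σ (hρR1 σ (h1 σ hσ))⟩
  have hunrY : ∀ p : ℕ, p.Prime → p ∉ Sg → ∀ A : ValuationSubring Qbar, A.LiesOverPrime p →
      ∀ σ ∈ A.inertiaSubgroupIn ℚ, ρY σ = 1 ∧ δ σ = 1 := fun p hp hpS A hA σ hσ =>
    ⟨hY1 σ (hρR1 σ (hunr p hp hpS A hA σ hσ)), hδunr p hp hpS A hA σ hσ⟩
  have hrelY : ∀ p : ℕ, p.Prime → p ∉ Sg → ∀ A : ValuationSubring Qbar, A.LiesOverPrime p →
      ∀ σ : GQ, A.IsFrobeniusAt σ p →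
        ρY σ * ρY σ - θ (T p) • ρY σ + ((δ σ : κˣ) : κ) • (1 : Module.End κ Y) = 0 := by
    intro p hp hpS A hA σ hσ
    rw [hδ p hp hpS A hA σ hσ]
    apply hYrel σ (T p) (D p)
    ext v
    have e := congrArg (fun f : Module.End F V => f v) (hES p hp hpS A hA σ hσ)
    simp only [LinearMap.add_apply, LinearMap.sub_apply, Module.End.mul_apply,
      LinearMap.zero_apply] at e
    simp only [LinearMap.add_apply, LinearMap.sub_apply, Module.End.mul_apply,
      LinearMap.smul_apply, Module.End.one_apply, LinearMap.zero_apply, hρR, hsmul]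
    exact e
  obtain ⟨r, hr1, hr2⟩ := exists_rep_of_frobRel hQ h2 ρY hfinY δ hδfin Sg hunrY
    (fun p => θ (T p)) hrelY
  obtain ⟨r', hr'1, hr'2⟩ := exists_rep_baseChange ι r
  refine ⟨r', fun p hp hpS => hr'1 p (hr1 p hp hpS), fun p hp hpS A hA σ hσ => ?_⟩
  rw [hr'2 σ, hr2 p hp hpS A hA σ hσ, hδ p hp hpS A hA σ hσ]
  simp only [Polynomial.map_add, Polynomial.map_sub, Polynomial.map_mul, Polynomial.map_pow,
    Polynomial.map_X, Polynomial.map_C]

end Fermat.Agent.S48.B.Chain.ModL
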