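/-
PROJECT D (S48, Deligne–Serre), PART B, block B5 (helper26): the abstract mod-`ℓ` chain B5-1,
HYPOTHESIS-FREE: `Chain/ModL.exists_residualRep` with helper1's `QuadRel.exists_rep_of_quadRel`
plugged in for `QuadRelGQ`.
-/
import Mathlib
import Fermat.Agent.S48.B.QuadRel
import Fermat.Agent.S48.B.Chain.ModL

set_option autoImplicit false

noncomputable section

namespace Fermat.Agent.S48.B.Chain.ModLFinal

open Polynomial
open Fermat.Agent.S48.B.Chain.ModL (Qbar GQ)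

/-- helper1's theorem is the hypothesis `QuadRelGQ` of `Chain/ModL`. -/
theorem quadRelGQ : ModL.QuadRelGQ := fun h2 _ _ _ _ _ ρ δ S hS hrel =>
  Fermat.Agent.S48.B.QuadRel.exists_rep_of_quadRel h2 ρ δ S hS hrel

/-- **B5-1, the abstract mod-`ℓ` chain, hypothesis-free.** -/
theorem exists_residualRep {ℓ : ℕ} [Fact ℓ.Prime] (hℓ2 : ℓ ≠ 2)
    {κ k : Type} [Field κ] [IsAlgClosed κ] [CharP κ ℓ] [Field k] (ι : κ →+* k)
    {F : Type} [CommRing F] {V : Type} [AddCommGroup V] [Module F V] [Finite V]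
    (ρ : GQ →* Module.End F V) (hfin : GaloisFactorsThroughFiniteLevel ρ)
    {R : Type} [CommRing R] (a : R →+* Module.End F V)
    (hcomm : ∀ (r : R) (σ : GQ), Commute (a r) (ρ σ))
    (θ : R →+* κ) (hmax : (RingHom.ker θ).IsMaximal) {x : V} (hx : x ≠ 0)
    (hxθ : ∀ r : R, θ r = 0 → a r x = 0)
    (Sg : Finset ℕ)
    (hunr : ∀ p : ℕ, p.Prime → p ∉ Sg → ∀ A : ValuationSubring Qbar, A.LiesOverPrime p →
      ∀ σ ∈ A.inertiaSubgroupIn ℚ, ρ σ = 1)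
    (T D : ℕ → R)
    (hES : ∀ p : ℕ, p.Prime → p ∉ Sg → ∀ A : ValuationSubring Qbar, A.LiesOverPrime p →
      ∀ σ : GQ, A.IsFrobeniusAt σ p → ρ σ * ρ σ - a (T p) * ρ σ + a (D p) = 0)
    (δ : GQ →* κˣ) (hδfin : GaloisFactorsThroughFiniteLevel δ)
    (hδunr : ∀ p : ℕ, p.Prime → p ∉ Sg → ∀ A : ValuationSubring Qbar, A.LiesOverPrime p →
      ∀ σ ∈ A.inertiaSubgroupIn ℚ, δ σ = 1)
    (hδ : ∀ p : ℕ, p.Prime → p ∉ Sg → ∀ A : ValuationSubring Qbar, A.LiesOverPrime p →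
      ∀ σ : GQ, A.IsFrobeniusAt σ p → ((δ σ : κˣ) : κ) = θ (D p)) :
    ∃ r : ResidualGaloisRep k, (∀ p : ℕ, p.Prime → p ∉ Sg → r.IsUnramifiedAt p) ∧
      ∀ p : ℕ, p.Prime → p ∉ Sg → ∀ A : ValuationSubring Qbar, A.LiesOverPrime p →
        ∀ σ : GQ, A.IsFrobeniusAt σ p →
          LinearMap.charpoly (r.ρ σ) = X ^ 2 - C (ι (θ (T p))) * X + C (ι (θ (D p))) :=
  ModL.exists_residualRep quadRelGQ hℓ2 ι ρ hfin a hcomm θ hmax hx hxθ Sg hunr T D hES δ hδfin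
    hδunr hδ

end Fermat.Agent.S48.B.Chain.ModLFinal
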